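import Fermat.Agent.DoeblinLenstra.Measure
import Mathlib.Topology.ContinuousMap.SecondCountableSpace

/-!
# The orbit of `(x, 0)` under the natural extension

The `k`-th iterate forgets its second coordinate up to `2 ^ (1 - k)`, so Birkhoff's theorem for the
Gauss map gives the equidistribution of the orbit of `(x, 0)`, which consists of the points
`(T ^ n x, q_(n-1) / q_n)`.
-/

set_option autoImplicit false

noncomputable section

open MeasureTheory Filter Topology Set Real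
open FA.PeriodicFractions FA.PointwiseErgodic

namespace FA.DoeblinLenstra

theorem natExt_fst (p : ℝ × ℝ) (k : ℕ) : (natExt^[k] p).1 = gaussMap^[k] p.1 := by
  induction k with
  | zero => rfl
  | succ k ih => rw [Function.iterate_succ_apply', Function.iterate_succ_apply', ← ih]; rfl

theorem one_le_floor_inv {x : ℝ} (hx : x ∈ Ioo (0 : ℝ) 1) : (1 : ℝ) ≤ (⌊x⁻¹⌋ : ℝ) := by
  exact_mod_cast Int.le_floor.2 (by exact_mod_cast ((one_lt_inv₀ hx.1).2 hx.2).le)

theorem natExt_mem {x y : ℝ} (hx : x ∈ unitIrr) (hy : y ∈ Icc (0 : ℝ) 1) (k : ℕ) :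
    (natExt^[k] (x, y)).1 ∈ unitIrr ∧ (natExt^[k] (x, y)).2 ∈ Icc (0 : ℝ) 1 := by
  induction k with
  | zero => exact ⟨hx, hy⟩
  | succ k ih =>
    refine ⟨natExt_fst (x, y) (k + 1) ▸ iterate_mem_unitIrr hx (k + 1), ?_⟩
    rw [Function.iterate_succ_apply', natExt]
    have ha := one_le_floor_inv ih.1.1
    have hv := ih.2.1
    exact ⟨by positivity, (div_le_one (by linarith)).2 (by linarith)⟩

/-- The second coordinate is forgotten exponentially fast. -/
theorem natExt_dist {x y y' : ℝ} (hx : x ∈ unitIrr) (hy : y ∈ Icc (0 : ℝ) 1)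
    (hy' : y' ∈ Icc (0 : ℝ) 1) (k : ℕ) :
    |(natExt^[k] (x, y)).2 - (natExt^[k] (x, y')).2| ≤ 2 * (1 / 2) ^ k := by
  let v : ℕ → ℝ := fun j => (natExt^[j] (x, y)).2
  let w : ℕ → ℝ := fun j => (natExt^[j] (x, y')).2
  let a : ℕ → ℝ := fun j => (⌊(gaussMap^[j] x)⁻¹⌋ : ℝ)
  have hv : ∀ j, v j ∈ Icc (0 : ℝ) 1 := fun j => (natExt_mem hx hy j).2
  have hw : ∀ j, w j ∈ Icc (0 : ℝ) 1 := fun j => (natExt_mem hx hy' j).2
  have ha : ∀ j, 1 ≤ a j := fun j => one_le_floor_inv (iterate_mem_unitIrr hx j).1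
  have ev : ∀ j, v (j + 1) = 1 / (a j + v j) := fun j => by
    simp only [v, a]
    rw [Function.iterate_succ_apply', ← natExt_fst (x, y) j]
    rfl
  have ew : ∀ j, w (j + 1) = 1 / (a j + w j) := fun j => by
    simp only [w, a]
    rw [Function.iterate_succ_apply', ← natExt_fst (x, y') j]
    rfl
  have hstep : ∀ j, |v (j + 1) - w (j + 1)| = |v j - w j| * (v (j + 1) * w (j + 1)) := fun j => by
    have h1 : 0 < a j + v j := by linarith [ha j, (hv j).1]
    have h2 : 0 < a j + w j := by linarith [ha j, (hw j).1]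
    rw [ev, ew, div_sub_div _ _ h1.ne' h2.ne', abs_div, abs_of_pos (mul_pos h1 h2),
      one_mul, mul_one, add_sub_add_left_eq_sub, abs_sub_comm, one_div_mul_one_div, mul_one_div]
  have hprod : ∀ {u : ℕ → ℝ} j, (∀ i, u (i + 1) = 1 / (a i + u i)) → (∀ i, u i ∈ Icc (0 : ℝ) 1) →
      u (j + 1) * u (j + 2) ≤ 1 / 2 := fun {u} j eu hu => by
    rw [eu (j + 1), mul_one_div, div_le_iff₀ (by linarith [ha (j + 1), (hu (j + 1)).1])]
    linarith [ha (j + 1), (hu (j + 1)).2]
  suffices h : ∀ j, |v j - w j| ≤ 2 * (1 / 2) ^ j ∧ |v (j + 1) - w (j + 1)| ≤ 2 * (1 / 2) ^ (j + 1)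
    from (h k).1
  intro j
  induction j with
  | zero =>
    have h0 : |v 0 - w 0| ≤ 1 := abs_sub_le_iff.2
      ⟨by linarith [(hv 0).2, (hw 0).1], by linarith [(hw 0).2, (hv 0).1]⟩
    refine ⟨by linarith, ?_⟩
    rw [hstep 0, pow_one]
    have := mul_le_mul h0 (mul_le_one₀ (hv 1).2 (hw 1).1 (hw 1).2)
      (mul_nonneg (hv 1).1 (hw 1).1) zero_le_one
    linarith
  | succ j ih =>
    refine ⟨ih.2, ?_⟩
    rw [hstep (j + 1), hstep j]
    calc |v j - w j| * (v (j + 1) * w (j + 1)) * (v (j + 1 + 1) * w (j + 1 + 1))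
        = |v j - w j| * ((v (j + 1) * v (j + 2)) * (w (j + 1) * w (j + 2))) := by ring
      _ ≤ 2 * (1 / 2) ^ j * (1 / 2 * (1 / 2)) := by
          refine mul_le_mul ih.1 (mul_le_mul (hprod j ev hv) (hprod j ew hw)
            (mul_nonneg (hw _).1 (hw _).1) (by norm_num)) ?_ (by positivity)
          exact mul_nonneg (mul_nonneg (hv _).1 (hv _).1) (mul_nonneg (hw _).1 (hw _).1)
      _ = 2 * (1 / 2) ^ (j + 1 + 1) := by ring

theorem exists_bound {F : ℝ × ℝ → ℝ} (hF : Continuous F) : ∃ C, ∀ x ∈ unitIrr,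
    ∀ y ∈ Icc (0 : ℝ) 1, ∀ k, |F (natExt^[k] (x, y))| ≤ C := by
  obtain ⟨C, hC⟩ := (isCompact_Icc.prod isCompact_Icc).exists_bound_of_continuousOn
    (s := Icc (0 : ℝ) 1 ×ˢ Icc (0 : ℝ) 1) hF.continuousOn
  exact ⟨C, fun x hx y hy k => hC _
    ⟨Ioo_subset_Icc_self (natExt_mem hx hy k).1.1, (natExt_mem hx hy k).2⟩⟩

theorem exists_forget {F : ℝ × ℝ → ℝ} (hF : Continuous F) {ε : ℝ} (hε : 0 < ε) :
    ∃ k, ∀ x ∈ unitIrr, ∀ y ∈ Icc (0 : ℝ) 1, ∀ y' ∈ Icc (0 : ℝ) 1,
      |F (natExt^[k] (x, y)) - F (natExt^[k] (x, y'))| ≤ ε := by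
  obtain ⟨δ, hδ, h⟩ := Metric.uniformContinuousOn_iff.1
    ((isCompact_Icc.prod isCompact_Icc).uniformContinuousOn_of_continuous
      (s := Icc (0 : ℝ) 1 ×ˢ Icc (0 : ℝ) 1) hF.continuousOn) ε hε
  obtain ⟨k, hk⟩ := exists_pow_lt_of_lt_one (half_pos hδ) (by norm_num : (1 / 2 : ℝ) < 1)
  refine ⟨k, fun x hx y hy y' hy' => (h _
    ⟨Ioo_subset_Icc_self (natExt_mem hx hy k).1.1, (natExt_mem hx hy k).2⟩ _
    ⟨Ioo_subset_Icc_self (natExt_mem hx hy' k).1.1, (natExt_mem hx hy' k).2⟩ ?_).le⟩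
  rw [Prod.dist_eq, natExt_fst, natExt_fst, dist_self, Real.dist_eq]
  exact max_lt hδ (by linarith [natExt_dist hx hy hy' k])

theorem integrable_comp {F : ℝ × ℝ → ℝ} (hF : Continuous F) (k : ℕ) :
    Integrable (fun p => F (natExt^[k] p)) extMeasure := by
  obtain ⟨C, hC⟩ := exists_bound hF
  exact Integrable.of_bound
    (hF.measurable.comp (measurable_natExt.iterate k)).aestronglyMeasurable C
    (ae_ext_mem.mono fun p hp => hC p.1 hp.1 p.2 hp.2 k)

theorem ae_gauss_unitIrr : ∀ᵐ x ∂gaussMeasure, x ∈ unitIrr := by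
  filter_upwards [ae_gaussMeasure_mem, gaussMeasure_absolutelyContinuous.ae_le
    (ae_restrict_of_ae (countable_not_irrational.ae_notMem volume))] with x hx hx'
  exact ⟨hx, not_not.1 hx'⟩

/-- Equidistribution for one test function. -/
theorem ae_tendsto_single {F : ℝ × ℝ → ℝ} (hF : Continuous F) : ∀ᵐ x ∂gaussMeasure,
    Tendsto (fun N : ℕ => (∑ n ∈ Finset.range N, F (natExt^[n] (x, 0))) / N) atTop
      (𝓝 (∫ p, F p ∂extMeasure)) := by
  obtain ⟨C, hC⟩ := exists_bound hF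
  have h0 : (0 : ℝ) ∈ Icc (0 : ℝ) 1 := ⟨le_rfl, zero_le_one⟩
  set G : ℕ → ℝ → ℝ := fun k z => F (natExt^[k] (z, 0)) with hG
  have hGm : ∀ k, Measurable (G k) := fun k =>
    hF.measurable.comp ((measurable_natExt.iterate k).comp (measurable_id.prodMk measurable_const))
  have hGi : ∀ k, Integrable (G k) gaussMeasure := fun k =>
    Integrable.of_bound (hGm k).aestronglyMeasurable C
      (ae_gauss_unitIrr.mono fun z hz => hC z hz 0 h0 k)
  have hc : ∀ k ε, (∀ x ∈ unitIrr, ∀ y ∈ Icc (0 : ℝ) 1, ∀ y' ∈ Icc (0 : ℝ) 1,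
      |F (natExt^[k] (x, y)) - F (natExt^[k] (x, y'))| ≤ ε) →
      |(∫ z, G k z ∂gaussMeasure) - ∫ p, F p ∂extMeasure| ≤ ε := fun k ε hk => by
    have e1 : ∫ z, G k z ∂gaussMeasure = ∫ p, G k p.1 ∂extMeasure := by
      rw [← measurePreserving_fst_ext.map_eq,
        integral_map measurable_fst.aemeasurable (hGm k).aestronglyMeasurable]
    have e2 : ∫ p, F p ∂extMeasure = ∫ p, F (natExt^[k] p) ∂extMeasure := by
      conv_lhs => rw [← (measurePreserving_natExt.iterate k).map_eq]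
      exact integral_map (measurable_natExt.iterate k).aemeasurable
        hF.measurable.aestronglyMeasurable
    have hi : Integrable (fun p : ℝ × ℝ => G k p.1) extMeasure :=
      (measurePreserving_fst_ext.integrable_comp (hGm k).aestronglyMeasurable).2 (hGi k)
    rw [e1, e2, ← integral_sub hi (integrable_comp hF k), ← Real.norm_eq_abs]
    refine (norm_integral_le_of_norm_le_const (C := ε)
      (ae_ext_mem.mono fun p hp => hk p.1 hp.1 0 h0 p.2 hp.2)).trans_eq ?_
    rw [probReal_univ, mul_one]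
  filter_upwards [ae_gauss_unitIrr,
    ae_all_iff.2 fun k => tendsto_average_ergodic ergodic_gaussMap (hGi k)] with x hx hx'
  rw [Metric.tendsto_atTop]
  intro ε hε
  obtain ⟨k, hk⟩ := exists_forget hF (by positivity : 0 < ε / 4)
  set g : ℕ → ℝ := fun n => F (natExt^[n] (x, 0)) with hg
  have hgk : ∀ n, |g (n + k) - G k (gaussMap^[n] x)| ≤ ε / 4 := fun n => by
    simp only [hg, hG]
    rw [Nat.add_comm n k, Function.iterate_add_apply, ← natExt_fst (x, 0) n]
    exact hk _ (natExt_mem hx h0 n).1 _ (natExt_mem hx h0 n).2 0 h0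
  obtain ⟨N₀, hN₀⟩ := Metric.tendsto_atTop.1 (hx' k) (ε / 4) (by positivity)
  obtain ⟨N₁, hN₁⟩ := exists_nat_gt (8 * (k : ℝ) * C / ε)
  refine ⟨max N₀ (N₁ + 1), fun N hN => ?_⟩
  have hB := hN₀ N ((le_max_left _ _).trans hN)
  have hN1 : (N₁ : ℝ) + 1 ≤ N := by exact_mod_cast (le_max_right _ _).trans hN
  have hN0 : (0 : ℝ) < N := by linarith [(Nat.cast_nonneg N₁ : (0 : ℝ) ≤ N₁)]
  rw [birkhoffAverage, birkhoffSum, smul_eq_mul, inv_mul_eq_div, Real.dist_eq] at hB
  rw [Real.dist_eq]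
  have hshift : |(∑ n ∈ Finset.range N, g (n + k)) - ∑ n ∈ Finset.range N, g n| ≤ k * (2 * C) := by
    have e : (∑ n ∈ Finset.range N, g (n + k)) - ∑ n ∈ Finset.range N, g n =
        ∑ i ∈ Finset.range k, (g (N + i) - g i) := by
      have h1 := Finset.sum_range_add g k N
      have h2 := Finset.sum_range_add g N k
      rw [Nat.add_comm k N] at h1
      simp only [Nat.add_comm k] at h1
      rw [Finset.sum_sub_distrib]
      linarith
    rw [e]
    refine (Finset.abs_sum_le_sum_abs _ _).trans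
      ((Finset.sum_le_card_nsmul _ _ (2 * C) fun i _ => ?_).trans_eq (by simp))
    exact (abs_sub _ _).trans (by linarith [hC x hx 0 h0 (N + i), hC x hx 0 h0 i])
  have hsum : |(∑ n ∈ Finset.range N, g (n + k)) - ∑ n ∈ Finset.range N, G k (gaussMap^[n] x)| ≤
      N * (ε / 4) := by
    rw [← Finset.sum_sub_distrib]
    exact (Finset.abs_sum_le_sum_abs _ _).trans
      ((Finset.sum_le_card_nsmul _ _ (ε / 4) fun n _ => hgk n).trans_eq (by simp))
  have hAB : |(∑ n ∈ Finset.range N, g n) / N -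
      (∑ n ∈ Finset.range N, G k (gaussMap^[n] x)) / N| < ε / 2 := by
    have h8 : 8 * (k : ℝ) * C < ε * N := by
      rw [div_lt_iff₀ hε] at hN₁
      nlinarith
    rw [← sub_div, abs_div, abs_of_pos hN0, div_lt_iff₀ hN0, abs_lt]
    rw [abs_le] at hshift hsum
    constructor <;> linarith
  have hJ := hc k (ε / 4) hk
  rw [abs_lt] at hAB hB ⊢
  rw [abs_le] at hJ
  constructor <;> linarith

/-- **Equidistribution of the orbit of `(x, 0)`.** -/
theorem ae_tendsto_all : ∀ᵐ x ∂gaussMeasure, ∀ F : ℝ × ℝ → ℝ, Continuous F →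
    Tendsto (fun N : ℕ => (∑ n ∈ Finset.range N, F (natExt^[n] (x, 0))) / N) atTop
      (𝓝 (∫ p, F p ∂extMeasure)) := by
  let f : ℕ → C(Icc (0 : ℝ) 1 × Icc (0 : ℝ) 1, ℝ) :=
    TopologicalSpace.denseSeq C(Icc (0 : ℝ) 1 × Icc (0 : ℝ) 1, ℝ)
  let e : ℕ → ℝ × ℝ → ℝ := fun i p =>
    f i (projIcc 0 1 zero_le_one p.1, projIcc 0 1 zero_le_one p.2)
  have he : ∀ i, Continuous (e i) := fun i => (f i).continuous.comp
    ((continuous_projIcc.comp continuous_fst).prodMk (continuous_projIcc.comp continuous_snd))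
  filter_upwards [ae_gauss_unitIrr, ae_all_iff.2 fun i => ae_tendsto_single (he i)] with x hx hx'
  intro F hF
  rw [Metric.tendsto_atTop]
  intro ε hε
  let g : C(Icc (0 : ℝ) 1 × Icc (0 : ℝ) 1, ℝ) :=
    ⟨fun q => F ((q.1 : ℝ), (q.2 : ℝ)), by fun_prop⟩
  obtain ⟨i, hi⟩ := (TopologicalSpace.denseRange_denseSeq
    C(Icc (0 : ℝ) 1 × Icc (0 : ℝ) 1, ℝ)).exists_dist_lt g
    (by positivity : 0 < ε / 4)
  have hclose : ∀ p : ℝ × ℝ, p.1 ∈ Icc (0 : ℝ) 1 → p.2 ∈ Icc (0 : ℝ) 1 →
      |F p - e i p| ≤ ε / 4 := fun p h1 h2 => by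
    have h := (ContinuousMap.dist_apply_le_dist (f := g) (g := f i) (⟨p.1, h1⟩, ⟨p.2, h2⟩))
    rw [Real.dist_eq] at h
    simp only [e, projIcc_of_mem zero_le_one h1, projIcc_of_mem zero_le_one h2]
    exact h.trans hi.le
  have hJ : |(∫ p, F p ∂extMeasure) - ∫ p, e i p ∂extMeasure| ≤ ε / 4 := by
    have hI1 : Integrable F extMeasure := integrable_comp hF 0
    have hI2 : Integrable (e i) extMeasure := integrable_comp (he i) 0
    rw [← integral_sub hI1 hI2, ← Real.norm_eq_abs]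
    refine (norm_integral_le_of_norm_le_const (C := ε / 4) (ae_ext_mem.mono fun p hp =>
      hclose p (Ioo_subset_Icc_self hp.1.1) hp.2)).trans_eq ?_
    rw [probReal_univ, mul_one]
  obtain ⟨N₀, hN₀⟩ := Metric.tendsto_atTop.1 (hx' i) (ε / 4) (by positivity)
  refine ⟨max N₀ 1, fun N hN => ?_⟩
  have hB := hN₀ N ((le_max_left _ _).trans hN)
  have hN0 : (0 : ℝ) < N := Nat.cast_pos.2 ((le_max_right N₀ 1).trans hN)
  have hAB : |(∑ n ∈ Finset.range N, F (natExt^[n] (x, 0))) / N -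
      (∑ n ∈ Finset.range N, e i (natExt^[n] (x, 0))) / N| ≤ ε / 4 := by
    rw [← sub_div, abs_div, abs_of_pos hN0, div_le_iff₀ hN0, ← Finset.sum_sub_distrib]
    refine (Finset.abs_sum_le_sum_abs _ _).trans
      ((Finset.sum_le_card_nsmul _ _ (ε / 4) fun n _ => ?_).trans_eq (by simp [mul_comm]))
    have hm := natExt_mem hx (left_mem_Icc.2 zero_le_one) n
    exact hclose _ (Ioo_subset_Icc_self hm.1.1) hm.2
  rw [Real.dist_eq, abs_lt] at hB ⊢
  rw [abs_le] at hAB hJ
  constructor <;> linarith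

/-- The cut-off equal to `1` up to `z` and to `0` from `z + ε`. -/
def cutoff (z ε s : ℝ) : ℝ := max 0 (min 1 ((z + ε - s) / ε))

theorem cutoff_nonneg (z ε s : ℝ) : 0 ≤ cutoff z ε s := le_max_left _ _

theorem cutoff_le_one (z ε s : ℝ) : cutoff z ε s ≤ 1 := max_le zero_le_one (min_le_left _ _)

theorem cutoff_eq_one {z ε s : ℝ} (hε : 0 < ε) (hs : s ≤ z) : cutoff z ε s = 1 := by
  rw [cutoff, min_eq_left ((one_le_div hε).2 (by linarith)), max_eq_right zero_le_one]

theorem cutoff_eq_zero {z ε s : ℝ} (hε : 0 < ε) (hs : z + ε ≤ s) : cutoff z ε s = 0 := by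
  rw [cutoff, max_eq_left]
  exact (min_le_right _ _).trans (div_nonpos_of_nonpos_of_nonneg (by linarith) hε.le)

theorem continuous_cutoff_theta (z ε : ℝ) : Continuous fun p => cutoff z ε (theta p) := by
  have := continuous_theta
  unfold cutoff
  fun_prop

/-- **The law of the orbit's approximation coefficients.** -/
theorem ae_count : ∀ᵐ x ∂gaussMeasure, ∀ z : ℝ,
    Tendsto (fun N : ℕ => (((Finset.range N).filter fun n =>
      theta (natExt^[n] (x, 0)) ≤ z).card : ℝ) / N) atTop (𝓝 (law (max 0 (min z 1)))) := by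
  filter_upwards [ae_tendsto_all] with x hx z
  rw [Metric.tendsto_atTop]
  intro δ hδ
  have hcont : Continuous fun w => law (max 0 (min w 1)) := continuous_law.comp (by fun_prop)
  obtain ⟨η, hη, hηz⟩ := Metric.continuousAt_iff.1 (hcont.continuousAt (x := z)) (δ / 2)
    (half_pos hδ)
  obtain ⟨ε, hε, hεη⟩ : ∃ ε, 0 < ε ∧ ε < η := ⟨η / 2, half_pos hη, half_lt_self hη⟩
  have hint : ∀ w, |law (max 0 (min (w + ε) 1)) - law (max 0 (min z 1))| < δ / 2 →
      |law (max 0 (min w 1)) - law (max 0 (min z 1))| < δ / 2 →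
      |(∫ p, cutoff w ε (theta p) ∂extMeasure) - law (max 0 (min z 1))| < δ / 2 :=
    fun w hhi hlo => by
    have hm : ∀ v, MeasurableSet {p | theta p ≤ v} := fun v =>
      continuous_theta.measurable (measurableSet_Iic (a := v))
    have hI : Integrable (fun p => cutoff w ε (theta p)) extMeasure :=
      integrable_comp (continuous_cutoff_theta w ε) 0
    have h1 : extMeasure.real {p | theta p ≤ w} ≤ ∫ p, cutoff w ε (theta p) ∂extMeasure := by
      rw [← integral_indicator_one (hm w)]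
      refine integral_mono ((integrable_const 1).indicator (hm w)) hI fun p => ?_
      by_cases hp : theta p ≤ w
      · rw [indicator_of_mem (by exact hp), cutoff_eq_one hε hp]
        rfl
      · rw [indicator_of_notMem (by exact hp)]
        exact cutoff_nonneg _ _ _
    have h2 : ∫ p, cutoff w ε (theta p) ∂extMeasure ≤ extMeasure.real {p | theta p ≤ w + ε} := by
      rw [← integral_indicator_one (hm (w + ε))]
      refine integral_mono hI ((integrable_const 1).indicator (hm (w + ε))) fun p => ?_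
      by_cases hp : theta p ≤ w + ε
      · rw [indicator_of_mem (by exact hp)]
        exact cutoff_le_one _ _ _
      · rw [indicator_of_notMem (by exact hp), cutoff_eq_zero hε (not_le.1 hp).le]
    rw [extReal_theta_le] at h1 h2
    rw [abs_lt] at hhi hlo ⊢
    constructor <;> linarith
  have hup := hint z (hηz (by rw [Real.dist_eq, add_sub_cancel_left, abs_of_pos hε]; exact hεη))
    (by rw [sub_self, abs_zero]; exact half_pos hδ)
  have hdn := hint (z - ε) (by rw [sub_add_cancel, sub_self, abs_zero]; exact half_pos hδ)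
    (hηz (by rw [Real.dist_eq, sub_sub_cancel_left, abs_neg, abs_of_pos hε]; exact hεη))
  obtain ⟨N₁, hN₁⟩ := Metric.tendsto_atTop.1 (hx _ (continuous_cutoff_theta z ε)) (δ / 2)
    (half_pos hδ)
  obtain ⟨N₂, hN₂⟩ := Metric.tendsto_atTop.1 (hx _ (continuous_cutoff_theta (z - ε) ε)) (δ / 2)
    (half_pos hδ)
  refine ⟨max N₁ N₂, fun N hN => ?_⟩
  have hu := hN₁ N ((le_max_left _ _).trans hN)
  have hd := hN₂ N ((le_max_right _ _).trans hN)
  rw [Real.dist_eq, abs_lt] at hu hd ⊢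
  rw [Finset.card_filter, Nat.cast_sum]
  have hle1 : (∑ n ∈ Finset.range N, cutoff (z - ε) ε (theta (natExt^[n] (x, 0)))) / N ≤
      (∑ n ∈ Finset.range N, ((if theta (natExt^[n] (x, 0)) ≤ z then 1 else 0 : ℕ) : ℝ)) / N := by
    refine div_le_div_of_nonneg_right (Finset.sum_le_sum fun n _ => ?_) N.cast_nonneg
    split_ifs with h
    · simpa using cutoff_le_one _ _ _
    · rw [cutoff_eq_zero hε (by linarith [not_le.1 h]), Nat.cast_zero]
  have hle2 : (∑ n ∈ Finset.range N, ((if theta (natExt^[n] (x, 0)) ≤ z then 1 else 0 : ℕ) : ℝ)) /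
      N ≤ (∑ n ∈ Finset.range N, cutoff z ε (theta (natExt^[n] (x, 0)))) / N := by
    refine div_le_div_of_nonneg_right (Finset.sum_le_sum fun n _ => ?_) N.cast_nonneg
    split_ifs with h
    · rw [cutoff_eq_one hε h, Nat.cast_one]
    · simpa using cutoff_nonneg _ _ _
  rw [abs_lt] at hup hdn
  constructor <;> linarith

/-- The second coordinate of the orbit is `q_(n-1) / q_n`. -/
theorem orbit_ratio {x : ℝ} (hx : Irrational x) (n : ℕ) :
    natExt^[n] (Int.fract x, 0) = (gaussMap^[n] (Int.fract x),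
      ((contin x (n + 1)).2.2.2 : ℝ) / (contin x (n + 1)).2.2.1) := by
  induction n with
  | zero => simp [contin]
  | succ n ih =>
    refine Prod.ext (natExt_fst _ _) ?_
    rw [Function.iterate_succ_apply', ih, natExt]
    simp only
    rw [← digit_eq_iterate hx n, contin.eq_def x (n + 1 + 1)]
    simp only
    push_cast
    have hq : (0 : ℝ) < (contin x (n + 1)).2.2.1 := by exact_mod_cast (den_bounds hx n).1
    rw [add_div' _ _ _ hq.ne', one_div_div, mul_comm]

/-- The approximation coefficient of the orbit is `q_n |q_n x - p_n|`. -/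
theorem orbit_theta {x : ℝ} (hx : Irrational x) (n : ℕ) :
    theta (natExt^[n] (Int.fract x, 0)) = (contin x (n + 1)).2.2.1 *
      |x * (contin x (n + 1)).2.2.1 - (contin x (n + 1)).1| := by
  have hmem : Int.fract x ∈ unitIrr :=
    ⟨⟨fract_cq_pos hx 0, Int.fract_lt_one x⟩, hx.sub_intCast ⌊x⌋⟩
  obtain ⟨p, p', q, q', he, hrel, hdet, hq', hq⟩ := contin_spec hx (n + 1)
  obtain ⟨hq0, -⟩ := hq.resolve_left n.succ_ne_zero
  have h0 : (0 : ℝ) < q := by exact_mod_cast hq0
  have h1 : (0 : ℝ) ≤ q' := by exact_mod_cast hq'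
  have hdet' : |(p : ℝ) * q' - p' * q| = 1 := by exact_mod_cast hdet
  have ht := (iterate_mem_unitIrr hmem n).1.1
  have hu : cq x (n + 1) = (gaussMap^[n] (Int.fract x))⁻¹ := by
    rw [← cq_succ_eq hmem, cq_succ', cq_succ', Int.fract_fract]
  have hden : 0 < (q : ℝ) * cq x (n + 1) + q' := by
    rw [hu]
    positivity
  have habs : |x * q - p| = 1 / ((q : ℝ) * cq x (n + 1) + q') := by
    rw [eq_div_iff hden.ne', ← abs_of_pos hden, ← abs_mul, ← hdet', ← abs_neg]
    congr 1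
    linear_combination -(q : ℝ) * hrel
  rw [orbit_ratio hx, he]
  simp only
  rw [theta_eq ht.le (div_nonneg h1 h0.le), habs, hu]
  field_simp

/-- **Equidistribution for the real numbers.** -/
theorem ae_real_equidistributed : ∀ᵐ x : ℝ, Irrational x ∧
    (∀ F : ℝ × ℝ → ℝ, Continuous F →
      Tendsto (fun N : ℕ => (∑ n ∈ Finset.range N, F (natExt^[n] (Int.fract x, 0))) / N) atTop
        (𝓝 (∫ p, F p ∂extMeasure))) ∧
    ∀ z : ℝ, Tendsto (fun N : ℕ => (((Finset.range N).filter fun n =>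
      theta (natExt^[n] (Int.fract x, 0)) ≤ z).card : ℝ) / N) atTop
        (𝓝 (law (max 0 (min z 1)))) :=
  ae_real_of_gauss (ae_tendsto_all.and ae_count)

end FA.DoeblinLenstra
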