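import Fermat.Agent.PointwiseErgodic.Khinchin
import Mathlib.MeasureTheory.Integral.Prod

/-!
# The natural extension of the Gauss map

`(x, y) ↦ (T x, 1 / (a + y))`, with `a` the first digit of `x`, preserves the probability measure
`dx dy / (log 2 (1 + x y) ^ 2)` on the unit square, branch by branch; the first marginal is the
Gauss measure. The law and the mean of `x / (1 + x y)` for this measure are computed.
-/

set_option autoImplicit false

noncomputable section

open MeasureTheory Filter Topology Set Real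
open FA.PeriodicFractions FA.PointwiseErgodic
open scoped ENNReal

namespace FA.DoeblinLenstra

/-- Lebesgue measure of `(0, 1)`. -/
abbrev unitVol : Measure ℝ := volume.restrict (Ioo (0 : ℝ) 1)

/-- The density `1 / (log 2 (1 + x y) ^ 2)`. -/
def weight (p : ℝ × ℝ) : ℝ≥0∞ := ENNReal.ofReal (1 / (log 2 * (1 + p.1 * p.2) ^ 2))

theorem measurable_weight : Measurable weight := by
  unfold weight
  fun_prop

/-- The measure of the natural extension. -/
def extMeasure : Measure (ℝ × ℝ) := (unitVol.prod unitVol).withDensity weight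

/-- The natural extension of the Gauss map. -/
def natExt (p : ℝ × ℝ) : ℝ × ℝ := (gaussMap p.1, 1 / ((⌊p.1⁻¹⌋ : ℝ) + p.2))

theorem measurable_natExt : Measurable natExt := by
  refine (measurable_gaussMap.comp measurable_fst).prodMk ?_
  have : Measurable fun p : ℝ × ℝ => (⌊p.1⁻¹⌋ : ℝ) :=
    measurable_from_top.comp (Int.measurable_floor.comp measurable_fst.inv)
  exact measurable_const.div (this.add measurable_snd)

theorem lintegral_ext {f : ℝ × ℝ → ℝ≥0∞} (hf : Measurable f) :
    ∫⁻ p, f p ∂extMeasure = ∫⁻ x, ∫⁻ y, weight (x, y) * f (x, y) ∂unitVol ∂unitVol := by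
  rw [extMeasure, lintegral_withDensity_eq_lintegral_mul _ measurable_weight hf,
    lintegral_prod _ (measurable_weight.mul hf).aemeasurable]
  rfl

theorem lintegral_ext_symm {f : ℝ × ℝ → ℝ≥0∞} (hf : Measurable f) :
    ∫⁻ p, f p ∂extMeasure = ∫⁻ y, ∫⁻ x, weight (x, y) * f (x, y) ∂unitVol ∂unitVol := by
  rw [extMeasure, lintegral_withDensity_eq_lintegral_mul _ measurable_weight hf,
    lintegral_prod_symm' _ (measurable_weight.mul hf)]
  rfl

/-- The fundamental theorem of calculus for a nonnegative continuous function. -/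
theorem lintegral_Ioo_of_deriv {f F : ℝ → ℝ} {a b : ℝ} (hab : a ≤ b)
    (hd : ∀ t ∈ Icc a b, HasDerivAt F (f t) t) (hc : ContinuousOn f (Icc a b))
    (h0 : ∀ t ∈ Icc a b, 0 ≤ f t) :
    ∫⁻ t in Ioo a b, ENNReal.ofReal (f t) = ENNReal.ofReal (F b - F a) := by
  rw [restrict_Ioo_eq_restrict_Ioc, ← ofReal_integral_eq_lintegral_ofReal
      (hc.integrableOn_Icc.mono_set Ioc_subset_Icc_self)
      ((ae_restrict_mem measurableSet_Ioc).mono fun t ht => h0 t (Ioc_subset_Icc_self ht)),
    ← intervalIntegral.integral_of_le hab,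
    intervalIntegral.integral_eq_sub_of_hasDerivAt
      (fun t ht => hd t (by rwa [uIcc_of_le hab] at ht))
      (hc.mono (uIcc_of_le hab).subset).intervalIntegrable]

theorem inner_integral {c X : ℝ} (hc : 0 ≤ c) (hX : 0 ≤ X) :
    ∫⁻ t in Ioo 0 X, ENNReal.ofReal (1 / (log 2 * (1 + c * t) ^ 2)) =
      ENNReal.ofReal (X / (log 2 * (1 + c * X))) := by
  have hl := log_pos one_lt_two
  have hpos : ∀ t ∈ Icc 0 X, 0 < 1 + c * t := fun t ht => by
    have := mul_nonneg hc ht.1
    linarith
  rw [lintegral_Ioo_of_deriv (F := fun t => t / (log 2 * (1 + c * t))) hX ?_ ?_ ?_]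
  · simp
  · intro t ht
    have h := hpos t ht
    refine ((hasDerivAt_id' t).div ((((hasDerivAt_id' t).const_mul c).const_add 1).const_mul
      (log 2)) (mul_pos hl h).ne').congr_deriv ?_
    field_simp
    ring
  · refine continuousOn_const.div (by fun_prop) fun t ht => ?_
    exact (mul_pos hl (pow_pos (hpos t ht) 2)).ne'
  · intro t ht
    have := hpos t ht
    positivity

theorem branch_facts (n : ℕ) {u : ℝ} (hu : u ∈ Ioo (0 : ℝ) 1) :
    1 / ((n : ℝ) + 1 + u) ∈ Ioo (0 : ℝ) 1 ∧ ⌊(1 / ((n : ℝ) + 1 + u))⁻¹⌋ = (n : ℤ) + 1 ∧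
      gaussMap (1 / ((n : ℝ) + 1 + u)) = u := by
  have hn := Nat.cast_nonneg (α := ℝ) n
  have hpos : 0 < (n : ℝ) + 1 + u := by linarith [hu.1]
  have e : (1 / ((n : ℝ) + 1 + u))⁻¹ = ((((n : ℤ) + 1 : ℤ) : ℝ)) + u := by
    rw [one_div, inv_inv]
    push_cast
    ring
  refine ⟨⟨by positivity, (div_lt_one hpos).2 (by linarith [hu.1])⟩, ?_, ?_⟩
  · rw [e, Int.floor_intCast_add, Int.floor_eq_zero_iff.2 ⟨hu.1.le, hu.2⟩, add_zero]
  · rw [gaussMap, e, Int.fract_intCast_add, Int.fract_eq_self.2 ⟨hu.1.le, hu.2⟩]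

/-- An integral over the unit interval, branch by branch. -/
theorem lintegral_branches (h : ℝ → ℝ≥0∞) :
    ∫⁻ x, h x ∂unitVol = ∑' n : ℕ, ∫⁻ u, ENNReal.ofReal (1 / ((n : ℝ) + 1 + u) ^ 2) *
      h (1 / ((n : ℝ) + 1 + u)) ∂unitVol := by
  set φ : ℕ → ℝ → ℝ := fun n u => 1 / ((n : ℝ) + 1 + u) with hφ
  have hinj : ∀ n, InjOn (φ n) (Ioo 0 1) := fun n u hu v hv he => by
    rw [← (branch_facts n hu).2.2, ← (branch_facts n hv).2.2]
    exact congrArg gaussMap he
  have hd : ∀ n, ∀ u ∈ Ioo (0 : ℝ) 1,
      HasDerivAt (φ n) (-(1 / ((n : ℝ) + 1 + u) ^ 2)) u := fun n u hu => by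
    have hpos : 0 < (n : ℝ) + 1 + u := by linarith [hu.1, Nat.cast_nonneg (α := ℝ) n]
    simp only [hφ, one_div]
    refine (((hasDerivAt_id' u).const_add ((n : ℝ) + 1)).fun_inv hpos.ne').congr_deriv ?_
    rw [neg_div, one_div]
  have hm : ∀ n, MeasurableSet (φ n '' Ioo 0 1) := fun n =>
    measurableSet_Ioo.image_of_continuousOn_injOn
      (fun u hu => (hd n u hu).continuousAt.continuousWithinAt) (hinj n)
  have hdisj : Pairwise (Function.onFun Disjoint fun n => φ n '' Ioo 0 1) := fun m n hmn => by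
    refine Set.disjoint_left.2 ?_
    rintro x ⟨u, hu, rfl⟩ ⟨v, hv, he⟩
    have h1 := (branch_facts m hu).2.1
    have h2 := (branch_facts n hv).2.1
    simp only [hφ] at he
    rw [he, h1] at h2
    exact hmn (by exact_mod_cast add_right_cancel h2)
  have hcov : (⋃ n, φ n '' Ioo 0 1) =ᵐ[volume] Ioo (0 : ℝ) 1 := by
    filter_upwards [countable_not_irrational.ae_notMem volume] with x hx
    refine propext ⟨?_, fun hx01 => ?_⟩
    · rintro ⟨_, ⟨n, rfl⟩, u, hu, rfl⟩
      exact (branch_facts n hu).1
    · have hx' : x ∈ unitIrr := ⟨hx01, not_not.1 hx⟩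
      have h1 : 1 ≤ ⌊x⁻¹⌋ :=
        Int.le_floor.2 (by exact_mod_cast ((one_lt_inv₀ hx01.1).2 hx01.2).le)
      obtain ⟨n, hn⟩ := Int.eq_ofNat_of_zero_le (show 0 ≤ ⌊x⁻¹⌋ - 1 by omega)
      refine mem_iUnion.2 ⟨n, gaussMap x, (iterate_mem_unitIrr hx' 1).1, ?_⟩
      have hn' : (⌊x⁻¹⌋ : ℝ) = (n : ℝ) + 1 := by
        exact_mod_cast (by omega : ⌊x⁻¹⌋ = (n : ℤ) + 1)
      simp only [hφ, gaussMap, Int.fract, hn']
      rw [add_sub_cancel, one_div, inv_inv]
  rw [← setLIntegral_congr hcov, lintegral_iUnion hm hdisj]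
  refine tsum_congr fun n => ?_
  rw [lintegral_image_eq_lintegral_abs_deriv_mul measurableSet_Ioo
    (fun u hu => (hd n u hu).hasDerivWithinAt) (hinj n)]
  refine setLIntegral_congr_fun measurableSet_Ioo fun u hu => ?_
  rw [abs_neg, abs_of_nonneg (by positivity)]

/-- **The natural extension preserves its measure.** -/
theorem measurePreserving_natExt : MeasurePreserving natExt extMeasure extMeasure := by
  refine ⟨measurable_natExt, Measure.ext_of_lintegral _ fun f hf => ?_⟩
  rw [lintegral_map hf measurable_natExt,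
    lintegral_ext_symm (f := fun p => f (natExt p)) (hf.comp measurable_natExt),
    lintegral_ext_symm hf]
  have hK : Measurable fun v => ∫⁻ u, weight (u, v) * f (u, v) ∂unitVol :=
    (measurable_weight.mul hf).lintegral_prod_left'
  rw [lintegral_branches fun v => ∫⁻ u, weight (u, v) * f (u, v) ∂unitVol]
  have hmw : ∀ (n : ℕ) y, Measurable fun u =>
      weight (u, 1 / ((n : ℝ) + 1 + y)) * f (u, 1 / ((n : ℝ) + 1 + y)) := fun n y =>
    (measurable_weight.comp (measurable_id.prodMk measurable_const)).mul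
      (hf.comp (measurable_id.prodMk measurable_const))
  have hterm : ∀ n : ℕ, AEMeasurable (fun y : ℝ => ENNReal.ofReal (1 / ((n : ℝ) + 1 + y) ^ 2) *
      ∫⁻ u, weight (u, 1 / ((n : ℝ) + 1 + y)) * f (u, 1 / ((n : ℝ) + 1 + y)) ∂unitVol) unitVol :=
    fun n => ((by fun_prop : Measurable fun y : ℝ =>
      ENNReal.ofReal (1 / ((n : ℝ) + 1 + y) ^ 2)).mul
        (hK.comp (by fun_prop : Measurable fun y : ℝ => 1 / ((n : ℝ) + 1 + y)))).aemeasurable
  rw [← lintegral_tsum hterm]
  refine lintegral_congr_ae ?_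
  filter_upwards [ae_restrict_mem measurableSet_Ioo] with y hy
  rw [lintegral_branches]
  refine tsum_congr fun n => ?_
  rw [← lintegral_const_mul _ (hmw n y)]
  refine setLIntegral_congr_fun measurableSet_Ioo fun u hu => ?_
  obtain ⟨-, h1, h2⟩ := branch_facts n hu
  simp only [natExt, h1, h2, Int.cast_add, Int.cast_natCast, Int.cast_one,
    weight]
  rw [← mul_assoc, ← mul_assoc, ← ENNReal.ofReal_mul (by positivity),
    ← ENNReal.ofReal_mul (by positivity)]
  congr 2
  have := log_pos one_lt_two
  have hu' : 0 < (n : ℝ) + 1 + u := by linarith [hu.1, Nat.cast_nonneg (α := ℝ) n]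
  have hy' : 0 < (n : ℝ) + 1 + y := by linarith [hy.1, Nat.cast_nonneg (α := ℝ) n]
  field_simp
  ring

/-- **The first marginal is the Gauss measure.** -/
theorem measurePreserving_fst_ext : MeasurePreserving Prod.fst extMeasure gaussMeasure := by
  refine ⟨measurable_fst, Measure.ext_of_lintegral _ fun g hg => ?_⟩
  rw [lintegral_map hg measurable_fst, lintegral_ext (f := fun p => g p.1) (hg.comp measurable_fst),
    gaussMeasure,
    lintegral_withDensity_eq_lintegral_mul _ (by unfold gaussDensity; fun_prop) hg]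
  refine setLIntegral_congr_fun measurableSet_Ioo fun x hx => ?_
  simp only [Pi.mul_apply, weight]
  rw [lintegral_mul_const _ (by fun_prop), inner_integral hx.1.le zero_le_one, mul_one,
    gaussDensity, one_div]

instance : IsProbabilityMeasure extMeasure := ⟨by
  rw [← preimage_univ (f := Prod.fst (α := ℝ) (β := ℝ)),
    measurePreserving_fst_ext.measure_preimage MeasurableSet.univ.nullMeasurableSet, measure_univ]⟩

theorem ae_ext_mem : ∀ᵐ p ∂extMeasure, p.1 ∈ unitIrr ∧ p.2 ∈ Icc (0 : ℝ) 1 := by
  have h1 : ∀ᵐ x ∂gaussMeasure, x ∈ unitIrr := by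
    filter_upwards [ae_gaussMeasure_mem, gaussMeasure_absolutelyContinuous.ae_le
      (ae_restrict_of_ae (countable_not_irrational.ae_notMem volume))] with x hx hx'
    exact ⟨hx, not_not.1 hx'⟩
  have h2 : ∀ᵐ p ∂unitVol.prod unitVol, p.2 ∈ Icc (0 : ℝ) 1 :=
    Measure.quasiMeasurePreserving_snd.ae
      ((ae_restrict_mem measurableSet_Ioo).mono fun y hy => Ioo_subset_Icc_self hy)
  filter_upwards [measurePreserving_fst_ext.quasiMeasurePreserving.ae h1,
    (withDensity_absolutelyContinuous _ weight).ae_le h2] with p hp hp'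
  exact ⟨hp, hp'⟩

/-- The approximation coefficient of a point of the square. -/
def theta (p : ℝ × ℝ) : ℝ := p.1 / max 1 (1 + p.1 * p.2)

theorem continuous_theta : Continuous theta :=
  continuous_fst.div (by fun_prop) fun p => (zero_lt_one.trans_le (le_max_left _ _)).ne'

theorem theta_eq {p : ℝ × ℝ} (h1 : 0 ≤ p.1) (h2 : 0 ≤ p.2) : theta p = p.1 / (1 + p.1 * p.2) := by
  rw [theta, max_eq_right (le_add_of_nonneg_right (mul_nonneg h1 h2))]

/-- The law of the approximation coefficients. -/
def law (z : ℝ) : ℝ :=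
  (1 / 2 + min z (1 / 2) - max z (1 / 2) + log (2 * max z (1 / 2))) / log 2

theorem continuous_law : Continuous law := by
  refine Continuous.div_const ?_ _
  refine Continuous.add (by fun_prop) (Continuous.log (by fun_prop) fun z => ?_)
  have := le_max_right z (1 / 2)
  positivity

theorem law_zero : law 0 = 0 := by norm_num [law]

theorem law_one : law 1 = 1 := by
  have := log_pos one_lt_two
  norm_num [law, this.ne']

theorem lintegral_min {z : ℝ} (hz0 : 0 ≤ z) (hz1 : z ≤ 1) :
    ∫⁻ y, ENNReal.ofReal (min z (1 / (1 + y)) / log 2) ∂unitVol = ENNReal.ofReal (law z) := by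
  have hl := log_pos one_lt_two
  have hc : ContinuousOn (fun y : ℝ => min z (1 / (1 + y)) / log 2) (Icc 0 1) := by
    refine ContinuousOn.div_const (continuousOn_const.inf
      (continuousOn_const.div (by fun_prop) fun y hy => ?_)) _
    linarith [hy.1]
  have hint : ∀ {a b : ℝ}, 0 ≤ a → b ≤ 1 → a ≤ b →
      IntervalIntegrable (fun y : ℝ => min z (1 / (1 + y)) / log 2) volume a b :=
    fun ha hb hab => (hc.mono (Icc_subset_Icc ha hb)).intervalIntegrable_of_Icc hab
  rw [unitVol, restrict_Ioo_eq_restrict_Ioc, ← ofReal_integral_eq_lintegral_ofReal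
      (hc.integrableOn_Icc.mono_set Ioc_subset_Icc_self)
      ((ae_restrict_mem measurableSet_Ioc).mono fun y hy => by
        have := hy.1
        positivity), ← intervalIntegral.integral_of_le zero_le_one]
  congr 1
  rw [intervalIntegral.integral_div, law]
  congr 1
  rcases le_total z (1 / 2) with h | h
  · rw [min_eq_left h, max_eq_right h]
    have he : ∀ y ∈ uIcc (0 : ℝ) 1, min z (1 / (1 + y)) = z := fun y hy => by
      rw [uIcc_of_le zero_le_one] at hy
      refine min_eq_left (h.trans ?_)
      exact one_div_le_one_div_of_le (by linarith [hy.1]) (by linarith [hy.2])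
    rw [intervalIntegral.integral_congr he]
    norm_num
  · rw [min_eq_right h, max_eq_left h]
    have hz : 0 < z := by linarith
    have hc0 : 0 ≤ 1 / z - 1 := sub_nonneg.2 ((le_div_iff₀ hz).2 (by linarith))
    have hc1 : 1 / z - 1 ≤ 1 := sub_le_iff_le_add.2 ((div_le_iff₀ hz).2 (by linarith))
    have hI : ∀ {a b : ℝ}, 0 ≤ a → b ≤ 1 → a ≤ b →
        IntervalIntegrable (fun y : ℝ => min z (1 / (1 + y))) volume a b := fun ha hb hab => by
      simpa [div_mul_cancel₀ _ hl.ne'] using (hint ha hb hab).mul_const (log 2)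
    have he1 : ∀ y ∈ uIcc 0 (1 / z - 1), min z (1 / (1 + y)) = z := fun y hy => by
      rw [uIcc_of_le hc0] at hy
      refine min_eq_left ((le_div_iff₀ (by linarith [hy.1])).2 ?_)
      have : z * (1 + y) ≤ z * (1 / z) := mul_le_mul_of_nonneg_left (by linarith [hy.2]) hz.le
      rwa [mul_one_div_cancel hz.ne'] at this
    have he2 : ∀ y ∈ uIcc (1 / z - 1) 1, min z (1 / (1 + y)) = 1 / (1 + y) := fun y hy => by
      rw [uIcc_of_le hc1] at hy
      refine min_eq_right ((div_le_iff₀ (by linarith [hy.1])).2 ?_)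
      have : z * (1 / z) ≤ z * (1 + y) := mul_le_mul_of_nonneg_left (by linarith [hy.1]) hz.le
      rwa [mul_one_div_cancel hz.ne'] at this
    rw [← intervalIntegral.integral_add_adjacent_intervals (hI le_rfl hc1 hc0)
      (hI hc0 le_rfl hc1), intervalIntegral.integral_congr he1,
      intervalIntegral.integral_congr he2, intervalIntegral.integral_const, smul_eq_mul,
      intervalIntegral.integral_eq_sub_of_hasDerivAt (f := fun y => log (1 + y))
        (fun y hy => by
          rw [uIcc_of_le hc1] at hy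
          exact ((hasDerivAt_id' y).const_add 1).log (by linarith [hy.1]))
        ((hI hc0 le_rfl hc1).congr fun y hy => he2 y (uIoc_subset_uIcc hy))]
    rw [show 1 + (1 / z - 1) = 1 / z by ring, one_div, log_inv, log_mul two_ne_zero hz.ne']
    field_simp
    ring_nf

/-- **The law of `x / (1 + x y)`.** -/
theorem ext_theta_le {z : ℝ} (hz0 : 0 ≤ z) (hz1 : z ≤ 1) :
    extMeasure {p | theta p ≤ z} = ENNReal.ofReal (law z) := by
  have hl := log_pos one_lt_two
  have hS : MeasurableSet {p | theta p ≤ z} :=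
    continuous_theta.measurable (measurableSet_Iic (a := z))
  rw [← lintegral_indicator_one hS, lintegral_ext_symm (measurable_one.indicator hS),
    ← lintegral_min hz0 hz1]
  refine setLIntegral_congr_fun measurableSet_Ioo fun y hy => ?_
  have hden : 0 < 1 - z * y := by nlinarith [hy.1, hy.2]
  have hX0 : 0 ≤ min 1 (z / (1 - z * y)) := le_min zero_le_one (div_nonneg hz0 hden.le)
  have hev : (fun x => weight (x, y) * {p | theta p ≤ z}.indicator 1 (x, y)) =ᵐ[unitVol]
      (Ioo 0 (min 1 (z / (1 - z * y)))).indicator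
        fun t => ENNReal.ofReal (1 / (log 2 * (1 + y * t) ^ 2)) := by
    have hne : ∀ᵐ x : ℝ, x ≠ z / (1 - z * y) := by simp [ae_iff]
    filter_upwards [ae_restrict_mem measurableSet_Ioo, ae_restrict_of_ae hne] with x hx hx'
    have hiff : theta (x, y) ≤ z ↔ x < min 1 (z / (1 - z * y)) := by
      rw [theta_eq (p := (x, y)) hx.1.le hy.1.le, div_le_iff₀ (by nlinarith [hx.1, hy.1]),
        lt_min_iff,
        lt_iff_le_and_ne (b := z / (1 - z * y)), le_div_iff₀ hden]
      exact ⟨fun h => ⟨hx.2, by simp only at h; linarith, hx'⟩,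
        fun h => by simp only; linarith [h.2.1]⟩
    simp only [Set.indicator_apply, Set.mem_ofPred_eq, Set.mem_Ioo, hiff, hx.1, true_and,
      Pi.one_apply, weight]
    split_ifs with h
    · rw [mul_one, mul_comm x y]
    · rw [mul_zero]
  rw [lintegral_congr_ae hev, setLIntegral_indicator measurableSet_Ioo,
    inter_eq_left.2 (Ioo_subset_Ioo_right (min_le_left _ _)), inner_integral hy.1.le hX0]
  congr 1
  rw [mul_comm (log 2), ← div_div]
  congr 1
  rcases le_total z (1 / (1 + y)) with h | h
  · have h' : z / (1 - z * y) ≤ 1 := by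
      rw [le_div_iff₀ (by linarith [hy.1])] at h
      exact (div_le_one hden).2 (by linarith)
    rw [min_eq_left h, min_eq_right h']
    field_simp
    ring
  · have h' : 1 ≤ z / (1 - z * y) := by
      rw [div_le_iff₀ (by linarith [hy.1])] at h
      exact (one_le_div hden).2 (by linarith)
    rw [min_eq_right h, min_eq_left h', mul_one]

theorem extReal_theta_le (z : ℝ) :
    extMeasure.real {p | theta p ≤ z} = law (max 0 (min z 1)) := by
  have hlaw : ∀ {w : ℝ}, 0 ≤ w → w ≤ 1 → 0 ≤ law w := fun {w} h0 h1 => by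
    have hl := log_pos one_lt_two
    refine div_nonneg ?_ hl.le
    rcases le_total w (1 / 2) with h | h
    · rw [min_eq_left h, max_eq_right h]
      norm_num
      linarith
    · rw [min_eq_right h, max_eq_left h]
      linarith [log_nonneg (show (1 : ℝ) ≤ 2 * w by linarith)]
  have key : ∀ {w : ℝ}, 0 ≤ w → w ≤ 1 → extMeasure.real {p | theta p ≤ w} = law w :=
    fun h0 h1 => by rw [measureReal_def, ext_theta_le h0 h1, ENNReal.toReal_ofReal (hlaw h0 h1)]
  rcases lt_trichotomy z 0 with h | h | h
  · rw [min_eq_left (by linarith), max_eq_left h.le, law_zero]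
    refine le_antisymm ?_ measureReal_nonneg
    refine (measureReal_mono fun p (hp : theta p ≤ z) => hp.trans h.le).trans_eq ?_
    exact (key le_rfl zero_le_one).trans law_zero
  · rw [h, min_eq_left zero_le_one, max_self]
    exact key le_rfl zero_le_one
  rcases le_total z 1 with h1 | h1
  · rw [min_eq_left h1, max_eq_right h.le]
    exact key h.le h1
  · rw [min_eq_right h1, max_eq_right zero_le_one, law_one]
    refine le_antisymm measureReal_le_one ?_
    rw [← law_one, ← key zero_le_one le_rfl]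
    exact measureReal_mono fun p (hp : theta p ≤ 1) => hp.trans h1

/-- **The mean of `x / (1 + x y)`.** -/
theorem integral_theta : ∫ p, theta p ∂extMeasure = 1 / (4 * log 2) := by
  have hl := log_pos one_lt_two
  rw [integral_eq_lintegral_of_nonneg_ae (f := theta)
    (ae_ext_mem.mono fun p hp => div_nonneg hp.1.1.1.le (zero_le_one.trans (le_max_left _ _)))
    continuous_theta.measurable.aestronglyMeasurable,
    lintegral_ext (continuous_theta.measurable.ennreal_ofReal)]
  have hin : ∀ x ∈ Ioo (0 : ℝ) 1, ∫⁻ y, weight (x, y) * ENNReal.ofReal (theta (x, y)) ∂unitVol =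
      ENNReal.ofReal ((1 - 1 / (1 + x) ^ 2) / (2 * log 2)) := fun x hx => by
    have hpos : ∀ y : ℝ, 0 ≤ y → 0 < 1 + x * y := fun y hy => by
      have := mul_nonneg hx.1.le hy
      linarith
    have e : ∀ y ∈ Ioo (0 : ℝ) 1, weight (x, y) * ENNReal.ofReal (theta (x, y)) =
        ENNReal.ofReal (x / (log 2 * (1 + x * y) ^ 3)) := fun y hy => by
      have := hpos y hy.1.le
      rw [weight, theta_eq (p := (x, y)) hx.1.le hy.1.le, ← ENNReal.ofReal_mul (by positivity)]
      congr 1
      simp only
      field_simp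
    rw [setLIntegral_congr_fun measurableSet_Ioo e, lintegral_Ioo_of_deriv
      (F := fun y => -1 / (2 * log 2 * (1 + x * y) ^ 2)) zero_le_one ?_ ?_ ?_]
    · congr 1
      have := hpos 1 zero_le_one
      field_simp
      ring
    · intro y hy
      have := hpos y hy.1
      refine ((hasDerivAt_const y (-1 : ℝ)).div
        (((((hasDerivAt_id' y).const_mul x).const_add 1).fun_pow 2).const_mul (2 * log 2))
        (by positivity)).congr_deriv ?_
      field_simp
      ring
    · refine continuousOn_const.div (by fun_prop) fun y hy => ?_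
      exact (mul_pos hl (pow_pos (hpos y hy.1) 3)).ne'
    · intro y hy
      have := hpos y hy.1
      have := hx.1
      positivity
  rw [setLIntegral_congr_fun measurableSet_Ioo hin, lintegral_Ioo_of_deriv
    (F := fun x => (x + 1 / (1 + x)) / (2 * log 2)) zero_le_one ?_ ?_ ?_,
    ENNReal.toReal_ofReal (sub_nonneg.2 (div_le_div_of_nonneg_right (by norm_num) (by positivity)))]
  · field_simp
    ring
  · intro x hx
    have : 0 < 1 + x := by linarith [hx.1]
    refine (((hasDerivAt_id' x).add ((hasDerivAt_const x (1 : ℝ)).div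
      ((hasDerivAt_id' x).const_add 1) this.ne')).div_const _).congr_deriv ?_
    field_simp
    ring
  · refine ContinuousOn.div_const (continuousOn_const.sub (continuousOn_const.div (by fun_prop)
      fun x hx => ?_)) _
    exact (pow_pos (by linarith [hx.1]) 2).ne'
  · intro x hx
    refine div_nonneg (sub_nonneg.2 ?_) (by positivity)
    exact (div_le_one (pow_pos (by linarith [hx.1]) 2)).2 (by nlinarith [hx.1])

end FA.DoeblinLenstra
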